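import Mathlib
import Fermat.Agent.LT.T2.H621.CirclePres
import Fermat.Agent.LT.T2.H472.LocCont
import Fermat.Agent.LT.T2.H291.OpsSpecT

/-!
# Row LT, tower T2, sub-leaf T2.27.13 `SubCirclePresT291` (helper271)

OFF-MAIN.  The `τ`-twisted circle means at a real place preserve the cusp functions of the class
`(𝔫, τ, r)`: `subCirclePresT271 K : H291.SubCirclePresT291 K`, exact type of
`LT/T2/H291/OpsSpecT.lean` (helper291@22c6ecc98, sha256 c8359c85).  `T`-form of the proof of
helper621 (`LT/T2/H621/CirclePres.lean`, T2.07.13), with the type `τ` and the ray generator `r`.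

* continuity: parametric interval integral of a jointly continuous function (`k` is continuous by
  `locCont472`, `τ` is continuous on `SO(2)`);
* boundedness: `‖τ(k_θ)‖ = 1`;
* invariance under `U(𝔫)` and under the compact groups at the other places (with the type): the
  elements commute with `k_θ` and `a`;
* invariance under the ray generator: `r` is central;
* the type under `SO(2)` at the place of the mean: `k' = k_{θ₀}`, `k_{θ₀} k_θ = k_{θ₀ + θ}`,
  `τ` is multiplicative and `θ ↦ τ(k_θ)⁻¹ φ(g k_θ a)` is `2π`-periodic (`k_{θ + 2π} = k_θ c`,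
  `c = -1 ∈ SO(2)` central at the place);
* cuspidality: Fubini on `D × (0, 2π]` (`μ D < ∞` by `T1.AddFundDomC`).
-/

set_option autoImplicit false
set_option linter.unusedSectionVars false
set_option linter.style.haveILetI false

open IsDedekindDomain NumberField MeasureTheory
open Fermat.Agent.LT.H556.A0
open Fermat.Agent.LT.T2 Fermat.Agent.LT.T2.H291 Fermat.Agent.LT.T2.H621
open scoped ComplexConjugate

noncomputable section

namespace Fermat.Agent.LT.T2.H271

open NumberField.InfinitePlace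

variable {K : Type} [Field K] [NumberField K]

/-! ## The rotations -/

theorem rot_unitary_aux271 (c s : ℂ) (hc : (starRingEnd ℂ) c = c) (hs : (starRingEnd ℂ) s = s)
    (h : c * c + s * s = 1) :
    (!![c, -s; s, c] : Matrix (Fin 2) (Fin 2) ℂ)
      * (!![c, -s; s, c] : Matrix (Fin 2) (Fin 2) ℂ).conjTranspose = 1 := by
  ext i j
  fin_cases i <;> fin_cases j
  · simp only [Matrix.mul_apply, Fin.sum_univ_two, Matrix.conjTranspose_apply]
    simp [hc, hs]
    linear_combination h
  · simp only [Matrix.mul_apply, Fin.sum_univ_two, Matrix.conjTranspose_apply]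
    simp [hc, hs]
    ring
  · simp only [Matrix.mul_apply, Fin.sum_univ_two, Matrix.conjTranspose_apply]
    simp [hc, hs]
    ring
  · simp only [Matrix.mul_apply, Fin.sum_univ_two, Matrix.conjTranspose_apply]
    simp [hc, hs]
    linear_combination h

theorem rotY_mul_conjTranspose271 (θ : ℝ) : rotY θ * (rotY θ).conjTranspose = 1 := by
  have h := Real.cos_sq_add_sin_sq (θ / 2)
  have hc : ((Real.cos (θ / 2) : ℝ) : ℂ) * ((Real.cos (θ / 2) : ℝ) : ℂ)
      + ((Real.sin (θ / 2) : ℝ) : ℂ) * ((Real.sin (θ / 2) : ℝ) : ℂ) = 1 := by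
    rw [← Complex.ofReal_mul, ← Complex.ofReal_mul, ← Complex.ofReal_add]
    have : Real.cos (θ / 2) * Real.cos (θ / 2) + Real.sin (θ / 2) * Real.sin (θ / 2) = 1 := by
      nlinarith [h]
    rw [this, Complex.ofReal_one]
  exact rot_unitary_aux271 _ _ (Complex.conj_ofReal _) (Complex.conj_ofReal _) hc

theorem rotY_det271 (θ : ℝ) : (rotY θ).det = 1 := by
  have h := Real.cos_sq_add_sin_sq (θ / 2)
  have hc : ((Real.cos (θ / 2) : ℝ) : ℂ) * ((Real.cos (θ / 2) : ℝ) : ℂ)
      + ((Real.sin (θ / 2) : ℝ) : ℂ) * ((Real.sin (θ / 2) : ℝ) : ℂ) = 1 := by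
    rw [← Complex.ofReal_mul, ← Complex.ofReal_mul, ← Complex.ofReal_add]
    have : Real.cos (θ / 2) * Real.cos (θ / 2) + Real.sin (θ / 2) * Real.sin (θ / 2) = 1 := by
      nlinarith [h]
    rw [this, Complex.ofReal_one]
  rw [rotY, Matrix.det_fin_two_of]
  linear_combination hc

/-- The rotations are in `SO(2)`. -/
theorem isArchCompact_rot271 (w : InfinitePlace K) (k : ℝ → G K) (hk : IsRotAt w k) (θ : ℝ) :
    IsArchCompact w (k θ) := by
  refine ⟨(hk θ).1, ?_, fun _ => ?_⟩
  · rw [(hk θ).2]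
    exact rotY_mul_conjTranspose271 θ
  · rw [(hk θ).2]
    exact rotY_det271 θ

theorem continuous_rot271 (w : InfinitePlace K) (k : ℝ → G K) (hk : IsRotAt w k) :
    Continuous k := by
  refine Fermat.Agent.LT.T2.H472.locCont472 K w ℝ k (fun θ => (hk θ).1) fun i j => ?_
  have h : (fun θ => infComp w (k θ) i j) = fun θ => rotY θ i j :=
    funext fun θ => by rw [(hk θ).2]
  rw [h]
  exact continuous_rotY621.matrix_elem i j

theorem rot_add271 (w : InfinitePlace K) (k : ℝ → G K) (hk : IsRotAt w k) (θ₀ θ : ℝ) :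
    k θ₀ * k θ = k (θ₀ + θ) := by
  refine eq_of_local621 w (isLocalAtInf_mul621' _ _ _ (hk θ₀).1 (hk θ).1) (hk _).1 ?_
  rw [infComp_mul621', (hk θ₀).2, (hk θ).2, (hk (θ₀ + θ)).2, rotY_add621]

/-- An element of `SO(2)` at the real place `w` is a rotation. -/
theorem exists_rot271 (w : InfinitePlace K) (hw : w.IsReal) (k : ℝ → G K) (hk : IsRotAt w k)
    (k' : G K) (hk' : IsArchCompact w k') : ∃ θ₀ : ℝ, k' = k θ₀ := by
  obtain ⟨θ₀, hθ₀⟩ := exists_rotY621 (infComp w k') (infComp_im621 w hw k') hk'.2.1 (hk'.2.2 hw)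
  refine ⟨θ₀, eq_of_local621 w hk'.1 (hk θ₀).1 ?_⟩
  rw [hθ₀, (hk θ₀).2]

/-! ## The type -/

theorem tau_ne_zero271 {τ : G K → ℂ} (hτ : IsKType τ) (w : InfinitePlace K) (k : G K)
    (hk : IsArchCompact w k) : τ k ≠ 0 := by
  intro h
  have h1 := hτ.norm_one w k hk
  rw [h, norm_zero] at h1
  exact zero_ne_one h1

theorem continuous_tau_rot271 {τ : G K → ℂ} (hτ : IsKType τ) (w : InfinitePlace K)
    (k : ℝ → G K) (hk : IsRotAt w k) : Continuous fun θ => (τ (k θ))⁻¹ := by
  have h1 : Continuous fun θ => τ (k θ) :=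
    (hτ.cont w).comp_continuous (continuous_rot271 w k hk) fun θ => isArchCompact_rot271 w k hk θ
  exact h1.inv₀ fun θ => tau_ne_zero271 hτ w (k θ) (isArchCompact_rot271 w k hk θ)

theorem norm_tau_inv271 {τ : G K → ℂ} (hτ : IsKType τ) (w : InfinitePlace K) (k : G K)
    (hk : IsArchCompact w k) : ‖(τ k)⁻¹‖ = 1 := by
  rw [norm_inv, hτ.norm_one w k hk, inv_one]

/-! ## The ray generator is central -/

theorem rayGen_central271 {r : G K} (hr : IsRayGen r) (y : G K) : r * y = y * r := by
  obtain ⟨hfin, t, -, -, hinf⟩ := hr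
  refine commute_of_comp621 (fun w => ?_) fun v => ?_
  · rw [hinf w]
    ext i j
    simp [Matrix.diagonal_mul, Matrix.mul_diagonal, mul_comm]
  · have h : finComp v r = 1 := hfin v
    rw [h, one_mul, mul_one]

/-! ## Periodicity -/

/-- `θ ↦ τ(k_θ)⁻¹ φ(g k_θ a)` is `2π`-periodic. -/
theorem periodic_circleT271 {τ : G K → ℂ} (hτ : IsKType τ) (φ : G K → ℂ)
    (hinv : ∀ (w : InfinitePlace K) (k : G K), IsArchCompact w k →
      ∀ g : G K, φ (g * k) = τ k * φ g)
    (w : InfinitePlace K) (t : ℝ) (k : ℝ → G K) (a : G K) (hk : IsRotAt w k)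
    (ha : IsTorusAt w t a) (g : G K) :
    Function.Periodic (fun θ => (τ (k θ))⁻¹ * φ (g * k θ * a)) (2 * Real.pi) := by
  intro θ
  show (τ (k (θ + 2 * Real.pi)))⁻¹ * φ (g * k (θ + 2 * Real.pi) * a)
    = (τ (k θ))⁻¹ * φ (g * k θ * a)
  set c : G K := (k θ)⁻¹ * k (θ + 2 * Real.pi) with hc
  have hcloc : IsLocalAtInf w c :=
    isLocalAtInf_mul621' _ _ _ (isLocalAtInf_inv621' _ _ (hk θ).1) (hk _).1
  have hccomp : infComp w c = -1 := by
    rw [hc, infComp_mul621', (hk (θ + 2 * Real.pi)).2, rotY_add_two_pi621, Matrix.mul_neg,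
      ← (hk θ).2, infComp_inv_mul621']
  have hcK : IsArchCompact w c := isArchCompact_neg_one621 w c hcloc hccomp
  have hkk : k (θ + 2 * Real.pi) = k θ * c := by
    rw [hc, mul_inv_cancel_left]
  have hcd : infComp w c = Matrix.diagonal (fun _ => (-1 : ℂ)) := by
    rw [hccomp]
    ext i j
    fin_cases i <;> fin_cases j <;> simp
  have hca : c * a = a * c := commute_of_scalar621 w hcloc ha.1 (-1) hcd
  have hτc : τ c ≠ 0 := tau_ne_zero271 hτ w c hcK
  have hτk : τ (k θ) ≠ 0 := tau_ne_zero271 hτ w (k θ) (isArchCompact_rot271 w k hk θ)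
  have e1 : g * (k θ * c) * a = g * k θ * a * c := by
    rw [mul_assoc g (k θ * c) a, mul_assoc (k θ) c a, hca]
    simp only [mul_assoc]
  rw [hkk, hτ.mul w (k θ) c (isArchCompact_rot271 w k hk θ) hcK, e1, hinv w c hcK]
  field_simp

/-! ## The sub-leaf -/

/-- **T2.27.13 `SubCirclePresT291`.** -/
theorem subCirclePresT271 (K : Type) [Field K] [NumberField K] : SubCirclePresT291 K := by
  intro 𝔫 τ c R w hw t _ k a hk ha φ hφ
  have hτ : IsKType τ := c.kt
  have hkc : Continuous k := continuous_rot271 w k hk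
  have hτc : Continuous fun θ => (τ (k θ))⁻¹ := continuous_tau_rot271 hτ w k hk
  have hkK : ∀ θ, IsArchCompact w (k θ) := isArchCompact_rot271 w k hk
  have hper := periodic_circleT271 hτ φ hφ.aut.arch_compact w t k a hk ha
  refine ⟨⟨?_, ?_, ?_, ?_, ?_, ?_⟩, ?_⟩
  · -- continuity
    have hf : Continuous (Function.uncurry fun (g : G K) (θ : ℝ) =>
        (τ (k θ))⁻¹ * φ (g * k θ * a)) :=
      (hτc.comp continuous_snd).mul
        (hφ.aut.cont.comp ((continuous_fst.mul (hkc.comp continuous_snd)).mul continuous_const))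
    exact intervalIntegral.continuous_parametric_intervalIntegral_of_continuous' hf 0
      (2 * Real.pi)
  · -- boundedness
    obtain ⟨C, hC⟩ := hφ.aut.bdd
    refine ⟨C * |2 * Real.pi - 0|, fun g => ?_⟩
    refine intervalIntegral.norm_integral_le_of_norm_le_const fun θ _ => ?_
    rw [norm_mul, norm_tau_inv271 hτ w (k θ) (hkK θ), one_mul]
    exact hC _
  · -- left invariance
    intro γ g
    show (∫ θ in (0 : ℝ)..(2 * Real.pi), (τ (k θ))⁻¹ *
        φ (Matrix.GeneralLinearGroup.map (algebraMap K (Adl K)) γ * g * k θ * a))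
      = ∫ θ in (0 : ℝ)..(2 * Real.pi), (τ (k θ))⁻¹ * φ (g * k θ * a)
    congr 1
    funext θ
    rw [mul_assoc _ g, mul_assoc _ (g * k θ)]
    rw [hφ.aut.left_inv γ (g * k θ * a)]
  · -- level
    intro u hu g
    show (∫ θ in (0 : ℝ)..(2 * Real.pi), (τ (k θ))⁻¹ * φ (g * u * k θ * a))
      = ∫ θ in (0 : ℝ)..(2 * Real.pi), (τ (k θ))⁻¹ * φ (g * k θ * a)
    congr 1
    funext θ
    have e : g * u * k θ * a = g * k θ * a * u := by
      rw [mul_assoc g u, commute_of_trivInf621 w hu.1 (hk θ).1, mul_assoc g (k θ * u),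
        mul_assoc (k θ) u, commute_of_trivInf621 w hu.1 ha.1]
      simp only [mul_assoc]
    rw [e, hφ.aut.level_inv u hu]
  · -- the type under the compact groups
    intro w' k' hk' g
    show (∫ θ in (0 : ℝ)..(2 * Real.pi), (τ (k θ))⁻¹ * φ (g * k' * k θ * a))
      = τ k' * ∫ θ in (0 : ℝ)..(2 * Real.pi), (τ (k θ))⁻¹ * φ (g * k θ * a)
    by_cases h : w' = w
    · subst h
      obtain ⟨θ₀, rfl⟩ := exists_rot271 _ hw k hk k' hk'
      have e1 : (fun θ => (τ (k θ))⁻¹ * φ (g * k θ₀ * k θ * a))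
          = fun θ => τ (k θ₀) * (fun θ' => (τ (k θ'))⁻¹ * φ (g * k θ' * a)) (θ₀ + θ) := by
        funext θ
        show (τ (k θ))⁻¹ * φ (g * k θ₀ * k θ * a)
          = τ (k θ₀) * ((τ (k (θ₀ + θ)))⁻¹ * φ (g * k (θ₀ + θ) * a))
        have h0 : τ (k θ₀) ≠ 0 := tau_ne_zero271 hτ _ _ (hkK θ₀)
        have h1 : τ (k θ) ≠ 0 := tau_ne_zero271 hτ _ _ (hkK θ)
        rw [mul_assoc g (k θ₀), rot_add271 _ k hk θ₀ θ, ← rot_add271 _ k hk θ₀ θ,
          hτ.mul _ (k θ₀) (k θ) (hkK θ₀) (hkK θ)]
        field_simp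
      rw [e1, intervalIntegral.integral_const_mul,
        intervalIntegral.integral_comp_add_left (fun θ' => (τ (k θ'))⁻¹ * φ (g * k θ' * a)) θ₀,
        add_zero]
      have e2 := (hper g).intervalIntegral_add_eq θ₀ 0
      rw [zero_add] at e2
      rw [e2]
    · rw [← intervalIntegral.integral_const_mul]
      congr 1
      funext θ
      have e : g * k' * k θ * a = g * k θ * a * k' := by
        rw [mul_assoc g k', commute_of_ne621 h hk'.1 (hk θ).1, mul_assoc g (k θ * k'),
          mul_assoc (k θ) k', commute_of_ne621 h hk'.1 ha.1]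
        simp only [mul_assoc]
      rw [e, hφ.aut.arch_compact w' k' hk']
      ring
  · -- the ray generator
    intro g
    show (∫ θ in (0 : ℝ)..(2 * Real.pi), (τ (k θ))⁻¹ * φ (g * R.r * k θ * a))
      = ∫ θ in (0 : ℝ)..(2 * Real.pi), (τ (k θ))⁻¹ * φ (g * k θ * a)
    congr 1
    funext θ
    have e : g * R.r * k θ * a = g * k θ * a * R.r := by
      rw [mul_assoc g R.r, rayGen_central271 R.ray (k θ), mul_assoc g (k θ * R.r),
        mul_assoc (k θ) R.r, rayGen_central271 R.ray a]
      simp only [mul_assoc]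
    rw [e, hφ.aut.ray]
  · -- cuspidality
    letI : MeasurableSpace (Adl K) := borel (Adl K)
    haveI : BorelSpace (Adl K) := ⟨rfl⟩
    intro μ hμ D hD n hn g
    haveI := hμ
    haveI := countable_range621 K
    obtain ⟨D₀, -, hD₀, -, -, hfin⟩ := c.t1.addFundDom μ hμ
    have hD₀' : IsAddFundamentalDomain ((algebraMap K (Adl K)).toAddMonoidHom.range) D₀ μ := hD₀
    have hDfin : μ D < ⊤ := by
      rw [hD.measure_eq hD₀']
      exact hfin
    haveI : IsFiniteMeasure (μ.restrict D) := ⟨by rwa [Measure.restrict_apply_univ]⟩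
    have hnc : Continuous n := continuous_unip621 n hn
    set f : Adl K → ℝ → ℂ := fun x θ => (τ (k θ))⁻¹ * φ (n x * g * k θ * a) with hf
    have hfc : Continuous (Function.uncurry f) :=
      (hτc.comp continuous_snd).mul
        (hφ.aut.cont.comp
          ((((hnc.comp continuous_fst).mul continuous_const).mul
            (hkc.comp continuous_snd)).mul continuous_const))
    obtain ⟨C, hC⟩ := hφ.aut.bdd
    have hint : Integrable (Function.uncurry f)
        ((μ.restrict D).prod (volume.restrict (Set.Ioc (0 : ℝ) (2 * Real.pi)))) := by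
      refine Integrable.mono' (g := fun _ => C) (integrable_const C) hfc.aestronglyMeasurable
        (Filter.Eventually.of_forall fun p => ?_)
      show ‖(τ (k p.2))⁻¹ * φ (n p.1 * g * k p.2 * a)‖ ≤ C
      rw [norm_mul, norm_tau_inv271 hτ w (k p.2) (hkK p.2), one_mul]
      exact hC _
    have h1 : ∀ x : Adl K, circleMeanT τ k a φ (n x * g)
        = ∫ θ in Set.Ioc (0 : ℝ) (2 * Real.pi), f x θ := fun x =>
      intervalIntegral.integral_of_le (by positivity)
    show ∫ x in D, circleMeanT τ k a φ (n x * g) ∂μ = 0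
    simp only [h1]
    rw [integral_integral_swap hint]
    have h2 : ∀ θ : ℝ, ∫ x in D, f x θ ∂μ = 0 := fun θ => by
      have := hφ.cuspidal μ hμ D hD n hn (g * k θ * a)
      simp only [hf]
      rw [integral_const_mul]
      have e : (fun x => φ (n x * g * k θ * a)) = fun x => φ (n x * (g * k θ * a)) :=
        funext fun x => by simp only [mul_assoc]
      rw [e, this, mul_zero]
    simp only [h2, integral_zero]

end Fermat.Agent.LT.T2.H271

end
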